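import Mathlib

/-!
# Complete Nakayama and Krull dimension of integral extensions
-/

set_option autoImplicit false

namespace Fermat.Agent.RT.Algebra

open Submodule

/-- A finite free module over a precomplete ring is precomplete. -/
theorem isPrecomplete_pi {R : Type*} [CommRing R] (I : Ideal R) [IsPrecomplete I R] (k : ℕ) :
    IsPrecomplete I (Fin k → R) := by
  classical
  refine ⟨fun f hf => ?_⟩
  have hcoord : ∀ i, ∀ {m n : ℕ}, m ≤ n → f m i ≡ f n i [SMOD (I ^ m • ⊤ : Submodule R R)] :=
    fun i m n hmn => by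
      have h := SModEq.sub_mem.mp (hf hmn)
      refine SModEq.sub_mem.mpr ?_
      have := Submodule.mem_map_of_mem (f := LinearMap.proj (R := R) (φ := fun _ : Fin k => R) i) h
      rw [Submodule.map_smul''] at this
      exact Submodule.smul_mono le_rfl le_top this
  choose L hL using fun i => IsPrecomplete.prec (I := I) inferInstance (hcoord i)
  refine ⟨L, fun n => SModEq.sub_mem.mpr ?_⟩
  rw [← Finset.univ_sum_single (f n - L)]
  refine Submodule.sum_mem _ fun i _ => ?_
  have h := Submodule.mem_map_of_mem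
    (f := LinearMap.single R (fun _ : Fin k => R) i) (SModEq.sub_mem.mp (hL i n))
  rw [Submodule.map_smul''] at h
  exact Submodule.smul_mono le_rfl le_top h

/-- Complete Nakayama. -/
theorem finite_of_quotient {R N : Type*} [CommRing R] [AddCommGroup N] [Module R N] (I : Ideal R)
    [IsPrecomplete I R] [IsHausdorff I N]
    [Module.Finite R (N ⧸ (I • ⊤ : Submodule R N))] : Module.Finite R N := by
  obtain ⟨k, g, hg⟩ := Module.Finite.exists_fin (R := R) (M := N ⧸ (I • ⊤ : Submodule R N))
  choose g' hg' using fun i => Submodule.mkQ_surjective (I • ⊤ : Submodule R N) (g i)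
  have := isPrecomplete_pi I k
  let F : (Fin k → R) →ₗ[R] N := Fintype.linearCombination R g'
  have hsurj : Function.Surjective (mkQ (I • ⊤ : Submodule R N) ∘ₗ F) := by
    rw [← LinearMap.range_eq_top, eq_top_iff, ← hg, Submodule.span_le]
    rintro _ ⟨i, rfl⟩
    exact ⟨Pi.single i 1, by simp [F, Fintype.linearCombination_apply_single, ← hg']⟩
  exact Module.Finite.of_surjective F (surjective_of_mkQ_comp_surjective hsurj)

variable {S A : Type*} [CommRing S] [CommRing A] [Algebra S A] [Algebra.IsIntegral S A]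

theorem ringKrullDim_le_of_isIntegral : ringKrullDim A ≤ ringKrullDim S := by
  refine Order.krullDim_le_of_strictMono
    (fun p => PrimeSpectrum.comap (algebraMap S A) p) fun p q hpq => ?_
  obtain ⟨x, hxq, hxp⟩ := SetLike.exists_of_lt (show p.asIdeal < q.asIdeal from hpq)
  exact Ideal.comap_lt_comap_of_integral_mem_sdiff (hI := p.2) hpq.le ⟨hxq, hxp⟩
    (Algebra.IsIntegral.isIntegral x)

theorem le_ringKrullDim_of_isIntegral (hinj : Function.Injective (algebraMap S A)) :
    ringKrullDim S ≤ ringKrullDim A := by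
  have lift : ∀ p : PrimeSpectrum S, ∃ q : PrimeSpectrum A,
      PrimeSpectrum.comap (algebraMap S A) q = p := fun p => by
    obtain ⟨Q, -, hQ, hQp⟩ := Ideal.exists_ideal_over_prime_of_isIntegral p.asIdeal (⊥ : Ideal A)
      (by rw [← RingHom.ker_eq_comap_bot, (RingHom.injective_iff_ker_eq_bot _).mp hinj]; exact bot_le)
    exact ⟨⟨Q, hQ⟩, PrimeSpectrum.ext hQp⟩
  refine iSup_le fun l => ?_
  suffices H : ∃ l' : LTSeries (PrimeSpectrum A),
      l'.length = l.length ∧ PrimeSpectrum.comap (algebraMap S A) l'.last = l.last by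
    obtain ⟨l', hl, -⟩ := H
    exact le_iSup_of_le l' (by rw [hl])
  induction l using RelSeries.inductionOn' with
  | singleton p =>
    obtain ⟨q, hq⟩ := lift p
    exact ⟨RelSeries.singleton _ q, rfl, by simpa using hq⟩
  | snoc l p hlt ih =>
    obtain ⟨l', hlen, hlast⟩ := ih
    have hle : l'.last.asIdeal.comap (algebraMap S A) ≤ p.asIdeal := by
      have h : (l.last : PrimeSpectrum S).asIdeal ≤ p.asIdeal := le_of_lt hlt
      rwa [← hlast] at h
    obtain ⟨Q, hQle, hQ, hQp⟩ :=
      Ideal.exists_ideal_over_prime_of_isIntegral p.asIdeal l'.last.asIdeal hle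
    have hlt' : l'.last < (⟨Q, hQ⟩ : PrimeSpectrum A) := by
      refine lt_of_le_of_ne (show l'.last.asIdeal ≤ Q from hQle) fun h => ?_
      have h2 : (l.last : PrimeSpectrum S) = p := by
        rw [← hlast, h]; exact PrimeSpectrum.ext hQp
      exact (ne_of_lt hlt) h2
    exact ⟨l'.snoc ⟨Q, hQ⟩ hlt', by simp [hlen], by simpa using PrimeSpectrum.ext hQp⟩

end Fermat.Agent.RT.Algebra
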