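import Fermat.Agent.RT.Algebra.Support
import Fermat.Agent.RT.Algebra.Ultralimit

/-!
# The limit of a sequence of patching levels

Finite levels, free over quotients of `S` shrinking to zero and generated over the coordinates
by a fixed finite family, have a limit to which the support theorem applies.
-/

set_option autoImplicit false

noncomputable section

namespace Fermat.Agent.RT.Algebra

open MvPowerSeries IsLocalRing Fermat.Agent.RT.Germ
open scoped Pointwise

/-- A ring map from a local ring to a finite ring kills a uniform power of the maximal ideal. -/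
theorem map_eq_zero_of_mem_pow_card {A R : Type*} [CommRing A] [IsLocalRing A] [Ring R] [Finite R]
    (h : A →+* R) {x : A} (hx : x ∈ maximalIdeal A ^ Nat.card R) : h x = 0 := by
  set N := Nat.card R
  have hpow : maximalIdeal A ^ N = Submodule.span A ((maximalIdeal A : Set A) ^ N) := by
    rw [← Submodule.span_pow, Submodule.span_eq]
  rw [hpow] at hx
  induction hx using Submodule.span_induction with
  | mem x hx =>
    obtain ⟨f, rfl⟩ := Set.mem_pow.mp hx
    set l := List.ofFn fun i => (f i : A) with hl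
    have hlen : l.length = N := List.length_ofFn
    obtain ⟨a, b, hne, hab⟩ : ∃ a b : Fin (N + 1), a ≠ b ∧
        h (l.take a).prod = h (l.take b).prod := by
      have := Fintype.ofFinite R
      obtain ⟨a, b, hne, hab⟩ := Fintype.exists_ne_map_eq_of_card_lt
        (fun k : Fin (N + 1) => h (l.take k).prod)
        (by rw [← Nat.card_eq_fintype_card, Fintype.card_fin]; exact Nat.lt_succ_self N)
      exact ⟨a, b, hne, hab⟩
    wlog hlt : a < b generalizing a b
    · exact this b a hne.symm hab.symm (lt_of_le_of_ne (not_lt.mp hlt) hne.symm)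
    have hsplit : (l.take b).prod = (l.take a).prod * ((l.take b).drop a).prod := by
      rw [← List.prod_append]
      nth_rw 1 [← List.take_append_drop a (l.take b)]
      rw [List.take_take, min_eq_left (Fin.le_def.mp hlt.le)]
    have hmem : ((l.take b).drop a).prod ∈ maximalIdeal A := by
      have hne' : (l.take b).drop a ≠ [] := by
        rw [← List.length_pos_iff, List.length_drop, List.length_take, hlen]
        have h1 := Fin.lt_def.mp hlt
        have h2 := b.isLt
        omega
      obtain ⟨y, t, hyt⟩ := List.exists_cons_of_ne_nil hne'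
      have hy : y ∈ l := List.mem_of_mem_take (List.mem_of_mem_drop (hyt ▸ List.mem_cons_self ..))
      obtain ⟨i, rfl⟩ := List.mem_ofFn.mp hy
      rw [hyt, List.prod_cons]
      exact Ideal.mul_mem_right _ _ (f i).2
    obtain ⟨u, hu⟩ := isUnit_one_sub_self_of_mem_nonunits _ hmem
    have h0 : h ((l.take a).prod * (u : A)) = 0 := by
      rw [hu, mul_sub, mul_one, ← hsplit, map_sub, hab, sub_self]
    have ha : h (l.take a).prod = 0 := by
      have := congrArg (· * h (↑u⁻¹ : A)) h0
      simp only [zero_mul] at this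
      rwa [← map_mul, mul_assoc, Units.mul_inv, mul_one] at this
    calc h l.prod = h ((l.take a).prod * (l.drop a).prod) := by rw [List.prod_take_mul_prod_drop]
      _ = 0 := by rw [map_mul, ha, zero_mul]
  | zero => exact map_zero h
  | add x y _ _ h1 h2 => rw [map_add, h1, h2, add_zero]
  | smul a x _ h1 => rw [smul_eq_mul, map_mul, h1, mul_zero]

/-- The residue field of a power series ring is that of its coefficients. -/
theorem finite_residueField_mvPowerSeries {σ O : Type*} [CommRing O] [IsLocalRing O]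
    [Finite (ResidueField O)] : Finite (ResidueField (MvPowerSeries σ O)) := by
  have hC : IsLocalHom (C (σ := σ) (R := O)) := ⟨fun a ha => by
    simpa using MvPowerSeries.isUnit_iff_constantCoeff.mp ha⟩
  refine Finite.of_surjective (ResidueField.map (C (σ := σ) (R := O))) fun z => ?_
  obtain ⟨g, rfl⟩ := IsLocalRing.residue_surjective z
  refine ⟨residue O (constantCoeff g), ?_⟩
  rw [ResidueField.map_residue, ← sub_eq_zero, ← map_sub, residue_eq_zero_iff,
    IsLocalRing.mem_maximalIdeal]
  exact fun h => by simpa using MvPowerSeries.isUnit_iff_constantCoeff.mp h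

variable {V ρ ι : Type*} [Finite V] [Finite ρ] [Finite ι]
  {O : Type*} [CommRing O] [IsDomain O] [IsDiscreteValuationRing O]
  [IsAdicComplete (maximalIdeal O) O] [Finite (ResidueField O)]
  {K : Type*} [NontriviallyNormedField K] [IsUltrametricDist K] [CompleteSpace K]
  [IsAlgClosed K] {δ : V → O}

/-- The limit statement for levels of constant rank. -/
theorem coeff_mem_maximalIdeal_of_levels_of_rank (φ : O →+* ball1 K) (hφinj : Function.Injective φ)
    (hφ : ∀ c ∈ maximalIdeal O, ‖(φ c : K)‖ < 1) (h2 : ‖(2 : K)‖ = 1)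
    (hδ0 : ∀ v, δ v ≠ 0) (hδ : ∀ v, δ v ∈ maximalIdeal O)
    (hcard : Nat.card ι = Nat.card (V × Fin 3 ⊕ ρ))
    {M : ℕ → Type*} [∀ n, AddCommGroup (M n)]
    [∀ n, Module (MvPowerSeries (Coord V ρ) O) (M n)]
    [∀ n, Module (MvPowerSeries ι O) (M n)]
    [∀ n, SMulCommClass (MvPowerSeries (Coord V ρ) O) (MvPowerSeries ι O) (M n)]
    (hC : ∀ n (c : O) (x : M n), (C c : MvPowerSeries (Coord V ρ) O) • x =
      (C c : MvPowerSeries ι O) • x)
    {D : ℕ} (hD : 0 < D) (b : ∀ n, Fin D → M n)
    (hb : ∀ n (x : M n), ∃ c : Fin D → MvPowerSeries ι O, x = ∑ i, c i • b n i)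
    (hJ : ∀ n (c : Fin D → MvPowerSeries ι O), ∑ i, c i • b n i = 0 →
      ∀ i, c i ∈ maximalIdeal (MvPowerSeries ι O) ^ n)
    {k : ℕ} (w : Fin k → MvPowerSeries ι O)
    (hgen : ∀ n (x : M n), ∃ c : Fin k × Fin D → MvPowerSeries (Coord V ρ) O,
      x = ∑ p, c p • w p.1 • b n p.2)
    (hrel : ∀ n, ∀ r ∈ relIdeal (ρ := ρ) δ, ∀ x : M n, r • x = 0)
    {π : O} (hπ : Irreducible π) {f : MvPowerSeries (Coord V ρ) O}
    (hf : ∀ n (x : M n), ∃ y : M n, f • x = (C π : MvPowerSeries (Coord V ρ) O) • y)
    {d : Coord V ρ →₀ ℕ} (hd : ∀ v l, d (Sum.inl (v, 0, l)) = 0) :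
    coeff d f ∈ maximalIdeal O := by
  classical
  let S := MvPowerSeries ι O
  let Λ := MvPowerSeries (Coord V ρ) O
  let U : Ultrafilter ℕ := Filter.hyperfilter ℕ
  have hU : ∀ j, ∀ᶠ n in (U : Filter ℕ), j ≤ n := fun j =>
    Filter.hyperfilter_le_cofinite (by rw [Nat.cofinite_eq_atTop]; exact Filter.eventually_ge_atTop j)
  let q : ∀ j, S →+* S ⧸ maximalIdeal S ^ j := fun j => Ideal.Quotient.mk _
  let Q : ∀ j, Matrix (Fin D) (Fin D) S →+* Matrix (Fin D) (Fin D) (S ⧸ maximalIdeal S ^ j) :=
    fun j => (q j).mapMatrix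
  have huniq : ∀ {n j : ℕ}, j ≤ n → ∀ A B : Matrix (Fin D) (Fin D) S,
      (∀ l, ∑ i, A i l • b n i = ∑ i, B i l • b n i) → Q j A = Q j B := by
    intro n j hjn A B hAB
    ext i l
    refine Ideal.Quotient.eq.mpr (Ideal.pow_le_pow_right hjn ?_)
    refine hJ n (fun i => A i l - B i l) ?_ i
    simp only [sub_smul, Finset.sum_sub_distrib, hAB l, sub_self]
  choose cb hcb using hb
  let R : ∀ n, Λ → Matrix (Fin D) (Fin D) S := fun n x i l => cb n (x • b n l) i
  have hR : ∀ n (x : Λ) l, x • b n l = ∑ i, R n x i l • b n i := fun n x l => hcb n _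
  have hRmul : ∀ n (x y : Λ) l,
      ∑ i, (R n x * R n y) i l • b n i = (x * y) • b n l := by
    intro n x y l
    rw [mul_smul, hR n y l, Finset.smul_sum]
    simp only [Matrix.mul_apply, Finset.sum_smul]
    rw [Finset.sum_comm]
    refine Finset.sum_congr rfl fun m _ => ?_
    rw [smul_comm x, hR n x m, Finset.smul_sum]
    exact Finset.sum_congr rfl fun i _ => by rw [smul_smul, mul_comm]
  have hRC : ∀ n (c : O) l,
      ∑ i, Matrix.scalar (Fin D) (C c : S) i l • b n i = (C c : Λ) • b n l := by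
    intro n c l
    rw [hC, Matrix.scalar_apply, Finset.sum_eq_single l]
    · rw [Matrix.diagonal_apply_eq]
    · intro i _ hi
      rw [Matrix.diagonal_apply_ne _ hi, zero_smul]
    · simp
  -- the approximate actions are ring maps
  let h : ∀ {n j : ℕ}, j ≤ n → Λ →+* Matrix (Fin D) (Fin D) (S ⧸ maximalIdeal S ^ j) :=
    fun {n j} hjn =>
    { toFun := fun x => Q j (R n x)
      map_one' := by
        rw [← map_one (Q j)]
        refine huniq hjn _ _ fun l => ?_
        rw [← hR, one_smul, Finset.sum_eq_single l]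
        · simp
        · intro i _ hi; simp [Matrix.one_apply_ne hi]
        · simp
      map_mul' := fun x y => by
        rw [← map_mul]
        exact huniq hjn _ _ fun l => by rw [← hR, hRmul]
      map_zero' := by
        rw [← map_zero (Q j)]
        exact huniq hjn _ _ fun l => by simp [← hR]
      map_add' := fun x y => by
        rw [← map_add]
        exact huniq hjn _ _ fun l => by
          simp [← hR, Matrix.add_apply, add_smul, Finset.sum_add_distrib] }
  -- the limit action
  choose L₀ hL using fun (x : Λ) (i l : Fin D) => exists_ultralimit U fun n => R n x i l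
  let L : Λ → Matrix (Fin D) (Fin D) S := fun x => Matrix.of (L₀ x)
  have hlim : ∀ (x : Λ) (j : ℕ),
      ∀ᶠ n in (U : Filter ℕ), ∃ hjn : j ≤ n, h hjn x = Q j (L x) := by
    intro x j
    have : ∀ᶠ n in (U : Filter ℕ), ∀ i l, R n x i l - L x i l ∈ maximalIdeal S ^ j := by
      simp only [Filter.eventually_all]
      exact fun i l => hL x i l j
    filter_upwards [this, hU j] with n hn hjn
    exact ⟨hjn, Matrix.ext fun i l => Ideal.Quotient.eq.mpr (hn i l)⟩
  have hsep : ∀ A B : Matrix (Fin D) (Fin D) S,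
      (∀ j, ∀ᶠ _n in (U : Filter ℕ), Q j A = Q j B) → A = B := fun A B hAB =>
    Matrix.ext fun i l => eq_of_eventually_sub_mem U fun j => (hAB j).mono fun n hn =>
      Ideal.Quotient.eq.mp (congrFun (congrFun hn i) l)
  have hLC : ∀ c : O, L (C c) = Matrix.scalar (Fin D) (C c : S) := fun c =>
    hsep _ _ fun j => by
      filter_upwards [hlim (C c) j] with n ⟨hjn, hn⟩
      rw [← hn]
      exact huniq hjn _ _ fun l => by rw [← hR, hRC]
  let LH : Λ →+* Matrix (Fin D) (Fin D) S :=
    { toFun := L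
      map_one' := by rw [← map_one (C (σ := Coord V ρ) (R := O)), hLC, map_one, map_one]
      map_mul' := fun x y => hsep _ _ fun j => by
        filter_upwards [hlim (x * y) j, hlim x j, hlim y j] with n ⟨hjn, h1⟩ ⟨_, h2⟩ ⟨_, h3⟩
        rw [← h1, map_mul, map_mul, ← h2, ← h3]
      map_zero' := by rw [← map_zero (C (σ := Coord V ρ) (R := O)), hLC, map_zero, map_zero]
      map_add' := fun x y => hsep _ _ fun j => by
        filter_upwards [hlim (x + y) j, hlim x j, hlim y j] with n ⟨hjn, h1⟩ ⟨_, h2⟩ ⟨_, h3⟩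
        rw [← h1, map_add, map_add, ← h2, ← h3] }
  let act : Λ →+* Module.End S (Fin D → S) :=
    (Matrix.toLinAlgEquiv' (R := S) (n := Fin D)).toRingEquiv.toRingHom.comp LH
  let _ : Module Λ (Fin D → S) := Module.compHom _ act
  have hsmul : ∀ (x : Λ) (v : Fin D → S), x • v = (L x).mulVec v := fun x v => rfl
  have : SMulCommClass Λ S (Fin D → S) := ⟨fun x s v => by
    rw [hsmul, hsmul, Matrix.mulVec_smul]⟩
  have : Nontrivial (Fin D → S) := by
    have : Nonempty (Fin D) := ⟨⟨0, hD⟩⟩
    infer_instance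
  -- generation by the fixed family
  have : Module.Finite Λ (Fin D → S) := by
    refine ⟨⟨Finset.univ.image fun p : Fin k × Fin D => w p.1 • (Pi.single p.2 1 : Fin D → S),
      eq_top_iff.mpr fun v _ => ?_⟩⟩
    choose c hc using fun n => hgen n (∑ i, v i • b n i)
    choose c' hc' using fun p => exists_ultralimit U fun n => c n p
    have hv : v = ∑ p, c' p • w p.1 • (Pi.single p.2 1 : Fin D → S) := by
      funext i
      refine eq_of_eventually_sub_mem U fun j => ?_
      have : Finite (ResidueField S) := finite_residueField_mvPowerSeries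
      have hfin : Finite (S ⧸ maximalIdeal S ^ j) := finite_quotient_pow j
      set N := Nat.card (Matrix (Fin D) (Fin D) (S ⧸ maximalIdeal S ^ j))
      have hev : ∀ᶠ n in (U : Filter ℕ), ∀ p, c n p - c' p ∈ maximalIdeal Λ ^ N ∧
          ∃ hjn : j ≤ n, h hjn (c' p) = Q j (L (c' p)) := by
        rw [Filter.eventually_all]
        exact fun p => (hc' p N).and (hlim (c' p) j)
      filter_upwards [hev, hU j] with n hn hjn
      have heq : ∑ i, (v i - ∑ p : Fin k × Fin D, w p.1 * R n (c n p) i p.2) • b n i = 0 := by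
        simp only [sub_smul, Finset.sum_sub_distrib, Finset.sum_smul]
        rw [hc n]
        refine sub_eq_zero.mpr ((Finset.sum_congr rfl fun p _ => ?_).trans Finset.sum_comm)
        rw [smul_comm, hR, Finset.smul_sum]
        simp only [mul_smul]
      refine Ideal.Quotient.eq.mp ?_
      have h1 := Ideal.Quotient.eq.mpr (Ideal.pow_le_pow_right hjn (hJ n _ heq i))
      rw [show Ideal.Quotient.mk (maximalIdeal S ^ j) (v i) = _ from h1, Finset.sum_apply, map_sum,
        map_sum]
      refine Finset.sum_congr rfl fun p _ => ?_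
      obtain ⟨hp1, _, hp2⟩ := hn p
      have h3 : h hjn (c n p) = h hjn (c' p) := by
        rw [← sub_eq_zero, ← map_sub]
        exact map_eq_zero_of_mem_pow_card (h hjn) hp1
      have h4 : q j (R n (c n p) i p.2) = q j (L (c' p) i p.2) :=
        congrFun (congrFun (h3.trans hp2) i) p.2
      rw [map_mul, h4, hsmul, Matrix.mulVec_smul, Matrix.mulVec_single_one, Pi.smul_apply,
        smul_eq_mul, map_mul]
      rfl
    rw [hv]
    exact Submodule.sum_mem _ fun p _ => Submodule.smul_mem _ _
      (Submodule.subset_span (Finset.mem_coe.mpr (Finset.mem_image_of_mem _ (Finset.mem_univ p))))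
  -- the hypotheses pass to the limit
  have hrel' : ∀ r ∈ relIdeal (ρ := ρ) δ, ∀ v : Fin D → S, r • v = 0 := fun r hr v => by
    have : L r = 0 := hsep _ _ fun j => by
      filter_upwards [hlim r j] with n ⟨hjn, hn⟩
      rw [← hn]
      exact huniq hjn _ _ fun l => by simp [← hR, hrel n r hr]
    rw [hsmul, this, Matrix.zero_mulVec]
  choose g hg using fun n l => hf n (b n l)
  choose G hG using fun i l => exists_ultralimit U fun n => cb n (g n l) i
  have hLf : L f = Matrix.scalar (Fin D) (C π : S) * Matrix.of G := hsep _ _ fun j => by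
    have hev : ∀ᶠ n in (U : Filter ℕ), ∀ i l, cb n (g n l) i - G i l ∈ maximalIdeal S ^ j := by
      simp only [Filter.eventually_all]
      exact fun i l => hG i l j
    filter_upwards [hev, hlim f j] with n hn ⟨hjn, h1⟩
    have hQG : Q j (Matrix.of fun i l => cb n (g n l) i) = Q j (Matrix.of G) :=
      Matrix.ext fun i l => Ideal.Quotient.eq.mpr (hn i l)
    rw [← h1, map_mul, ← hQG, ← map_mul]
    refine huniq hjn _ _ fun l => ?_
    rw [← hR, hg n l, hC, hcb n (g n l), Finset.smul_sum]
    refine Finset.sum_congr rfl fun i _ => ?_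
    rw [Matrix.scalar_apply, Matrix.diagonal_mul, Matrix.of_apply, mul_smul]
  refine coeff_mem_maximalIdeal φ hφinj hφ h2 hδ0 hδ hcard (M := Fin D → S)
    (fun c v => ?_) hrel' hπ (fun v => ⟨(Matrix.of G).mulVec v, ?_⟩) hd
  · rw [hsmul, hLC, Matrix.scalar_apply]
    funext i
    rw [Matrix.mulVec_diagonal, Pi.smul_apply, smul_eq_mul]
  · rw [hsmul, hsmul, hLC, hLf, Matrix.mulVec_mulVec]

/-- Levels of bounded rank: every series multiplying all of them into `π` times themselves has
all its coefficients at monomials free of `a, b, e` in the maximal ideal. -/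
theorem coeff_mem_maximalIdeal_of_levels (φ : O →+* ball1 K) (hφinj : Function.Injective φ)
    (hφ : ∀ c ∈ maximalIdeal O, ‖(φ c : K)‖ < 1) (h2 : ‖(2 : K)‖ = 1)
    (hδ0 : ∀ v, δ v ≠ 0) (hδ : ∀ v, δ v ∈ maximalIdeal O)
    (hcard : Nat.card ι = Nat.card (V × Fin 3 ⊕ ρ))
    {M : ℕ → Type*} [∀ n, AddCommGroup (M n)]
    [∀ n, Module (MvPowerSeries (Coord V ρ) O) (M n)]
    [∀ n, Module (MvPowerSeries ι O) (M n)]
    [∀ n, SMulCommClass (MvPowerSeries (Coord V ρ) O) (MvPowerSeries ι O) (M n)]
    (hC : ∀ n (c : O) (x : M n), (C c : MvPowerSeries (Coord V ρ) O) • x =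
      (C c : MvPowerSeries ι O) • x)
    {B : ℕ} (D : ℕ → ℕ) (hD : ∀ n, 0 < D n) (hDB : ∀ n, D n ≤ B) (b : ∀ n, Fin (D n) → M n)
    (hb : ∀ n (x : M n), ∃ c : Fin (D n) → MvPowerSeries ι O, x = ∑ i, c i • b n i)
    (hJ : ∀ n (c : Fin (D n) → MvPowerSeries ι O), ∑ i, c i • b n i = 0 →
      ∀ i, c i ∈ maximalIdeal (MvPowerSeries ι O) ^ n)
    {k : ℕ} (w : Fin k → MvPowerSeries ι O)
    (hgen : ∀ n (x : M n), ∃ c : Fin k × Fin (D n) → MvPowerSeries (Coord V ρ) O,
      x = ∑ p, c p • w p.1 • b n p.2)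
    (hrel : ∀ n, ∀ r ∈ relIdeal (ρ := ρ) δ, ∀ x : M n, r • x = 0)
    {π : O} (hπ : Irreducible π) {f : MvPowerSeries (Coord V ρ) O}
    (hf : ∀ n (x : M n), ∃ y : M n, f • x = (C π : MvPowerSeries (Coord V ρ) O) • y)
    {d : Coord V ρ →₀ ℕ} (hd : ∀ v l, d (Sum.inl (v, 0, l)) = 0) :
    coeff d f ∈ maximalIdeal O := by
  classical
  obtain ⟨D₀, hinf⟩ := Finite.exists_infinite_fiber
    fun n => (⟨D n, Nat.lt_succ_of_le (hDB n)⟩ : Fin (B + 1))
  rw [Set.infinite_coe_iff] at hinf
  choose m hm hnm using fun n => hinf.exists_gt n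
  simp only [Set.mem_preimage, Set.mem_singleton_iff, Fin.ext_iff] at hm
  let e : ∀ n, Fin (D₀ : ℕ) ≃ Fin (D (m n)) := fun n => finCongr (hm n).symm
  refine coeff_mem_maximalIdeal_of_levels_of_rank φ hφinj hφ h2 hδ0 hδ hcard
    (M := fun n => M (m n)) (fun n => hC (m n)) (D := (D₀ : ℕ)) (hm 0 ▸ hD (m 0))
    (fun n i => b (m n) (e n i)) (fun n x => ?_) (fun n c hc i => ?_) w (fun n x => ?_)
    (fun n => hrel (m n)) hπ (fun n => hf (m n)) hd
  · obtain ⟨c, hc⟩ := hb (m n) x
    exact ⟨c ∘ e n, hc.trans ((e n).sum_comp fun i => c i • b (m n) i).symm⟩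
  · refine Ideal.pow_le_pow_right (hnm n).le ?_
    have := hJ (m n) (c ∘ (e n).symm) (by
      rw [← (e n).sum_comp fun i => (c ∘ (e n).symm) i • b (m n) i]
      simpa using hc) (e n i)
    simpa using this
  · obtain ⟨c, hc⟩ := hgen (m n) x
    refine ⟨c ∘ Prod.map id (e n), hc.trans ?_⟩
    exact (((Equiv.refl (Fin k)).prodCongr (e n)).sum_comp fun p => c p • w p.1 • b (m n) p.2).symm

end Fermat.Agent.RT.Algebra
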