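import Fermat.Agent.RT.Algebra.Relations

/-!
# Support of a patched module killed by the relations

If a module killed by the relations is finite free and nonzero over a power series ring with as
many variables as there are parameters, then every series multiplying it into `π` times itself
has all its coefficients at monomials free of `a, b, e` in the maximal ideal.
-/

set_option autoImplicit false

noncomputable section

namespace Fermat.Agent.RT.Algebra

open MvPowerSeries IsLocalRing Fermat.Agent.RT.Germ IsMulCommutative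

section Ball

variable {K : Type*} [NontriviallyNormedField K] [IsUltrametricDist K]

theorem norm_le_one_of_isIntegral {x : K} (h : IsIntegral (ball1 K) x) : ‖x‖ ≤ 1 := by
  obtain ⟨P, hP, hx⟩ := h
  by_contra hlt
  rw [not_le] at hlt
  rw [Polynomial.eval₂_eq_sum_range] at hx
  rcases Nat.eq_zero_or_pos P.natDegree with h0 | h0
  · rw [h0] at hx
    simp [Polynomial.eq_one_of_monic_natDegree_zero hP h0] at hx
  rw [Finset.sum_range_succ, hP.coeff_natDegree, map_one, one_mul] at hx
  have hb : ‖∑ i ∈ Finset.range P.natDegree,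
      algebraMap (ball1 K) K (P.coeff i) * x ^ i‖ ≤ ‖x‖ ^ (P.natDegree - 1) :=
    IsUltrametricDist.norm_sum_le_of_forall_le_of_nonneg (pow_nonneg (norm_nonneg _) _)
      fun i hi => by
        rw [norm_mul, norm_pow]
        calc ‖algebraMap (ball1 K) K (P.coeff i)‖ * ‖x‖ ^ i ≤ 1 * ‖x‖ ^ i :=
              mul_le_mul_of_nonneg_right (norm_coe_le (P.coeff i)) (pow_nonneg (norm_nonneg _) _)
          _ ≤ ‖x‖ ^ (P.natDegree - 1) := by
              rw [one_mul]
              exact pow_le_pow_right₀ hlt.le (Nat.le_sub_one_of_lt (Finset.mem_range.mp hi))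
  rw [eq_neg_of_add_eq_zero_left hx, norm_neg, norm_pow] at hb
  exact absurd hb (not_le.mpr (pow_lt_pow_right₀ hlt (by omega)))

variable [CompleteSpace K] {O : Type*} [CommRing O] [IsLocalRing O] {σ : Type*} [Finite σ]

/-- Evaluation maps the maximal ideal into the open ball. -/
theorem norm_ev_lt_one (φ : O →+* ball1 K) (hφ : ∀ c ∈ maximalIdeal O, ‖(φ c : K)‖ < 1)
    (a : σ → ball1 K) (ha : ∀ i, ‖(a i : K)‖ < 1) {f : MvPowerSeries σ O}
    (hf : f ∈ maximalIdeal (MvPowerSeries σ O)) : ‖(ev φ a ha f : K)‖ < 1 := by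
  classical
  have := Fintype.ofFinite σ
  have hc : constantCoeff f ∈ maximalIdeal O := (IsLocalRing.mem_maximalIdeal _).mpr fun h =>
    (IsLocalRing.mem_maximalIdeal f).mp hf (MvPowerSeries.isUnit_iff_constantCoeff.mpr h)
  obtain ⟨g, hg⟩ := (Ideal.mem_span_range_iff_exists_fun).mp (Patching.sub_C_mem_span_range_X f)
  have hf' : f = ∑ i, g i * X i + C (constantCoeff f) := by rw [hg]; ring
  rw [hf', map_add, ev_C, map_sum, AddMemClass.coe_add, AddSubmonoidClass.coe_finsetSum]
  refine (IsUltrametricDist.norm_add_le_max _ _).trans_lt (max_lt ?_ (hφ _ hc))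
  rcases (Finset.univ : Finset σ).eq_empty_or_nonempty with h | h
  · simp [h]
  · refine lt_of_le_of_lt (h.norm_sum_le_sup'_norm _) ((Finset.sup'_lt_iff h).mpr fun i _ => ?_)
    rw [map_mul, ev_X, Subring.coe_mul, norm_mul]
    exact lt_of_le_of_lt (mul_le_of_le_one_left (norm_nonneg _) (norm_coe_le _)) (ha i)

end Ball

variable {V ρ ι : Type*} [Finite V] [Finite ρ] [Finite ι]
  {O : Type*} [CommRing O] [IsDomain O] [IsDiscreteValuationRing O]
  [IsAdicComplete (maximalIdeal O) O]

/-- The variables free of `a, b, e`. -/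
def freeEmb : V × Fin 3 ⊕ ρ ↪ Coord V ρ where
  toFun
    | Sum.inl (v, k) => Sum.inl (v, 1, k)
    | Sum.inr r => Sum.inr r
  inj' := by
    rintro (⟨v, k⟩ | r) (⟨w, l⟩ | s) h <;> simp_all

omit [Finite V] [Finite ρ] in
@[simp] theorem freeEmb_inl (v : V) (k : Fin 3) :
    freeEmb (ρ := ρ) (Sum.inl (v, k)) = Sum.inl (v, 1, k) := rfl

omit [Finite V] [Finite ρ] in
@[simp] theorem freeEmb_inr (r : ρ) : freeEmb (V := V) (Sum.inr r) = Sum.inr r := rfl

omit [Finite V] [Finite ρ] in
theorem exists_embDomain_eq {d : Coord V ρ →₀ ℕ} (hd : ∀ v j, d (Sum.inl (v, 0, j)) = 0) :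
    ∃ e : V × Fin 3 ⊕ ρ →₀ ℕ, Finsupp.embDomain freeEmb e = d := by
  refine ⟨d.comapDomain _ freeEmb.injective.injOn, Finsupp.ext fun c => ?_⟩
  obtain ⟨v, i, j⟩ | r := c
  · fin_cases i
    · rw [Finsupp.embDomain_of_notMem_range]
      · exact (hd v j).symm
      · rintro ⟨(⟨w, l⟩ | s), h⟩ <;> simp at h
    · exact (Finsupp.embDomain_apply_self freeEmb _ (Sum.inl (v, j))).trans
        (Finsupp.comapDomain_apply _ _ _ _)
  · exact (Finsupp.embDomain_apply_self freeEmb _ (Sum.inr r)).trans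
      (Finsupp.comapDomain_apply _ _ _ _)

variable {K : Type*} [NontriviallyNormedField K] [IsUltrametricDist K] [CompleteSpace K]
  [IsAlgClosed K] {δ : V → O}

/-- Let a domain be finite over the power series ring `S`, containing it, and integral over the
coordinates, in whose image the relations vanish. If `S` has as many variables as there are
parameters, the kernel is contained in the germ ideal. -/
theorem ker_le_germIdeal (φ : O →+* ball1 K) (hφinj : Function.Injective φ)
    (hφ : ∀ c ∈ maximalIdeal O, ‖(φ c : K)‖ < 1) (h2 : ‖(2 : K)‖ = 1)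
    (hδ0 : ∀ v, δ v ≠ 0) (hδ : ∀ v, δ v ∈ maximalIdeal O)
    (hδ' : ∀ v, ‖(φ (δ v) : K)‖ < 1) (hcard : Nat.card ι = Nat.card (V × Fin 3 ⊕ ρ))
    {A : Type*} [CommRing A] [IsDomain A] [Algebra (MvPowerSeries ι O) A]
    [Module.Finite (MvPowerSeries ι O) A]
    (hinj : Function.Injective (algebraMap (MvPowerSeries ι O) A))
    (ψ₀ : MvPowerSeries (Coord V ρ) O →+* A) (hψ₀ : ψ₀.IsIntegral)
    (hC : ∀ c : O, ψ₀ (C c) = algebraMap (MvPowerSeries ι O) A (C c))
    (hrel : relIdeal δ ≤ RingHom.ker ψ₀) :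
    RingHom.ker ψ₀ ≤ germIdeal (ρ := ρ) hδ' := by
  classical
  set S := MvPowerSeries ι O
  set Λ := MvPowerSeries (Coord V ρ) O
  set Q := germIdeal (ρ := ρ) hδ'
  -- every point kills the germ ideal
  have hQC : Q ≤ RingHom.ker ψ₀ := by
    intro f hf
    by_contra hfC
    have hne : ψ₀ f ≠ 0 := hfC
    have hcomap : (Ideal.span {ψ₀ f}).comap (algebraMap S A) ≠ ⊥ :=
      Ideal.comap_ne_bot_of_integral_mem hne (Ideal.subset_span rfl)
        (Algebra.IsIntegral.isIntegral _)
    obtain ⟨g, hgmem, hg0⟩ := Submodule.exists_mem_ne_zero_of_ne_bot hcomap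
    obtain ⟨d, hd⟩ : ∃ d, coeff d g ≠ 0 := by
      by_contra h
      simp only [not_exists, not_not] at h
      exact hg0 (MvPowerSeries.ext h)
    have := Fintype.ofFinite ι
    obtain ⟨y, hy, -, hyg⟩ :=
      exists_ev_ne_zero φ (f := g) (d₁ := d) (fun h => hd (hφinj (by rw [h, map_zero]))) one_pos
    set 𝔭 : Ideal S := RingHom.ker (ev φ y hy)
    have : 𝔭.IsPrime := RingHom.ker_isPrime _
    obtain ⟨𝔮, -, h𝔮, h𝔮p⟩ := Ideal.exists_ideal_over_prime_of_isIntegral 𝔭 (⊥ : Ideal A)
      (by rw [← RingHom.ker_eq_comap_bot, (RingHom.injective_iff_ker_eq_bot _).mp hinj]; exact bot_le)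
    have : 𝔮.LiesOver 𝔭 := ⟨h𝔮p.symm⟩
    let e : (S ⧸ 𝔭) →+* K := Ideal.Quotient.lift 𝔭 ((ball1 K).subtype.comp (ev φ y hy))
      fun s hs => by simp [show ev φ y hy s = 0 from hs]
    have he : Function.Injective e := by
      rw [injective_iff_map_eq_zero]
      intro x hx
      obtain ⟨s, rfl⟩ := Ideal.Quotient.mk_surjective x
      exact Ideal.Quotient.eq_zero_iff_mem.mpr (Subtype.ext hx)
    let _ : Algebra (S ⧸ 𝔭) K := e.toAlgebra
    have : Module.IsTorsionFree (S ⧸ 𝔭) K :=
      Module.isTorsionFree_iff_algebraMap_injective.mpr he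
    have hinj' : Function.Injective (algebraMap (S ⧸ 𝔭) (A ⧸ 𝔮)) := by
      rw [injective_iff_map_eq_zero]
      intro x hx
      obtain ⟨s, rfl⟩ := Ideal.Quotient.mk_surjective x
      rw [Ideal.Quotient.algebraMap_mk_of_liesOver, Ideal.Quotient.eq_zero_iff_mem] at hx
      exact Ideal.Quotient.eq_zero_iff_mem.mpr ((Ideal.mem_of_liesOver 𝔮 𝔭 s).mpr hx)
    have : Module.IsTorsionFree (S ⧸ 𝔭) (A ⧸ 𝔮) :=
      Module.isTorsionFree_iff_algebraMap_injective.mpr hinj'
    have : Algebra.IsAlgebraic (S ⧸ 𝔭) (A ⧸ 𝔮) := ⟨fun x =>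
      IsIntegral.isAlgebraic (IsIntegral.tower_top (R := S) (A := S ⧸ 𝔭)
        (Algebra.IsIntegral.isIntegral x))⟩
    let L : (A ⧸ 𝔮) →ₐ[S ⧸ 𝔭] K := IsAlgClosed.lift
    let ψA : A →+* K := L.toRingHom.comp (Ideal.Quotient.mk 𝔮)
    have hψS : ∀ s, ψA (algebraMap S A s) = (ev φ y hy s : K) := fun s => by
      have := L.commutes (Ideal.Quotient.mk 𝔭 s)
      rw [Ideal.Quotient.algebraMap_mk_of_liesOver] at this
      exact this
    have hψ1 : ∀ a, ‖ψA a‖ ≤ 1 := fun a => by
      refine norm_le_one_of_isIntegral ?_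
      obtain ⟨P, hP, hPx⟩ := Algebra.IsIntegral.isIntegral (R := S) a
      refine ⟨P.map (ev φ y hy), hP.map _, ?_⟩
      have := congrArg ψA hPx
      rw [map_zero, Polynomial.hom_eval₂] at this
      rw [Polynomial.eval₂_map, show (algebraMap (ball1 K) K).comp (ev φ y hy) =
        ψA.comp (algebraMap S A) from RingHom.ext fun s => (hψS s).symm]
      exact this
    have hψm : ∀ x ∈ maximalIdeal Λ, ‖ψA (ψ₀ x)‖ < 1 := fun x hx => by
      set I := (maximalIdeal S).map (algebraMap S A)
      have hrad : ψ₀ x ∈ I.radical := by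
        rw [Ideal.radical_eq_sInf, Ideal.mem_sInf]
        rintro P ⟨hIP, hP⟩
        have hle : maximalIdeal S ≤ P.comap (algebraMap S A) := Ideal.map_le_iff_le_comap.mp hIP
        have hcm : (P.comap (algebraMap S A)).IsMaximal := by
          rw [← (maximalIdeal.isMaximal S).eq_of_le (Ideal.IsPrime.comap _).ne_top hle]
          exact maximalIdeal.isMaximal S
        have hPm : P.IsMaximal := Ideal.isMaximal_of_isIntegral_of_isMaximal_comap P hcm
        let _ : Algebra Λ A := ψ₀.toAlgebra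
        have : Algebra.IsIntegral Λ A := ⟨hψ₀⟩
        exact (IsLocalRing.eq_maximalIdeal (I := P.comap (algebraMap Λ A))
          (Ideal.isMaximal_comap_of_isIntegral_of_isMaximal P)).ge hx
      obtain ⟨n, hn⟩ := hrad
      have hI : ∀ z ∈ I, ‖ψA z‖ < 1 := fun z hz => by
        induction hz using Submodule.span_induction with
        | mem z hz =>
          obtain ⟨s, hs, rfl⟩ := hz
          rw [hψS]
          exact norm_ev_lt_one φ hφ y hy hs
        | zero => simp
        | add z w _ _ h1 h2 =>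
          rw [map_add]
          exact (IsUltrametricDist.norm_add_le_max _ _).trans_lt (max_lt h1 h2)
        | smul z w _ h1 =>
          rw [smul_eq_mul, map_mul, norm_mul]
          exact lt_of_le_of_lt (mul_le_of_le_one_left (norm_nonneg _) (hψ1 z)) h1
      have hlt : ‖ψA (ψ₀ x)‖ ^ n < 1 := by
        rw [← norm_pow, ← map_pow]
        exact hI _ hn
      exact (pow_lt_one_iff_of_nonneg (norm_nonneg _) fun h0 => by simp [h0] at hlt).mp hlt
    let ψ' : Λ →+* ball1 K := (ψA.comp ψ₀).codRestrict (ball1 K) fun x => hψ1 (ψ₀ x)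
    let x : Coord V ρ → ball1 K := fun c => ψ' (X c)
    have hx : ∀ c, ‖(x c : K)‖ < 1 := fun c => hψm _ ((IsLocalRing.mem_maximalIdeal _).mpr
      fun h => by simpa using MvPowerSeries.isUnit_iff_constantCoeff.mp h)
    have hψC : ∀ c, ψA (ψ₀ (C c)) = (φ c : K) := fun c => by rw [hC, hψS, ev_C]
    have hψev : ψ' = ev φ x hx :=
      eq_ev φ x hx (fun c => Subtype.ext (hψC c)) fun c => rfl
    have hψ0 : ∀ r ∈ relIdeal (ρ := ρ) δ, ψA (ψ₀ r) = 0 := fun r hr => by
      rw [show ψ₀ r = 0 from hrel hr, map_zero]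
    have hev : ev φ x hx f = 0 := by
      refine ev_eq_zero_of_mem_germIdeal hδ' h2
        (fun v => fun h => hδ0 v (hφinj (by rw [map_zero]; exact Subtype.ext h))) hf x hx
        (fun v => ?_) fun v i k => ?_
      · have := hψ0 _ (Ideal.subset_span (Or.inl ⟨v, rfl⟩))
        simp only [conicRel, map_sub, map_add, map_mul, map_pow, hψC, sub_eq_zero] at this
        exact this
      · have := hψ0 _ (Ideal.subset_span (Or.inr ⟨(v, i, k), rfl⟩))
        simp only [minorRel, map_sub, map_mul, sub_eq_zero] at this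
        exact this
    obtain ⟨w, hw⟩ := Ideal.mem_span_singleton.mp hgmem
    refine hyg (Subtype.ext ?_)
    rw [← hψS, hw, map_mul]
    have : ψA (ψ₀ f) = 0 := by
      have h := congrArg Subtype.val (RingHom.congr_fun hψev f)
      rw [hev] at h
      exact h
    rw [this, zero_mul]
    rfl
  -- dimension
  set S0 := MvPowerSeries (V × Fin 3 ⊕ ρ) O
  set p : S0 →+* Λ := (param (V := V) (ρ := ρ) (O := O)).toRingHom
  set C' := RingHom.ker ψ₀
  have hfin0 : ((Ideal.Quotient.mk C').comp p).Finite := by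
    have h := (RingHom.Finite.of_surjective (Ideal.Quotient.factor hrel)
      (Ideal.Quotient.factor_surjective hrel)).comp (finite_param (ρ := ρ) hδ)
    rwa [← RingHom.comp_assoc, Ideal.Quotient.factor_comp_mk] at h
  set 𝔠 := C'.comap p
  have h𝔠 : 𝔠 = ⊥ := by
    by_contra hne
    obtain ⟨c, hc, hc0⟩ := Submodule.exists_mem_ne_zero_of_ne_bot hne
    let f0 : S0 ⧸ 𝔠 →+* Λ ⧸ C' := Ideal.quotientMap C' p le_rfl
    have hf0 : f0.Finite := RingHom.Finite.of_comp_finite (f := Ideal.Quotient.mk 𝔠) (by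
      rw [Ideal.quotientMap_comp_mk]
      exact hfin0)
    let _ : Algebra (S0 ⧸ 𝔠) (Λ ⧸ C') := f0.toAlgebra
    have : Module.Finite (S0 ⧸ 𝔠) (Λ ⧸ C') := hf0
    have h1 : ringKrullDim (Λ ⧸ C') ≤ ringKrullDim (S0 ⧸ 𝔠) := ringKrullDim_le_of_isIntegral
    let _ : Algebra (Λ ⧸ C') A := (RingHom.kerLift ψ₀).toAlgebra
    have : Algebra.IsIntegral (Λ ⧸ C') A := ⟨fun a => by
      obtain ⟨P, hP, hPa⟩ := hψ₀ a
      refine ⟨P.map (Ideal.Quotient.mk C'), hP.map _, ?_⟩
      rw [Polynomial.eval₂_map]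
      exact hPa⟩
    have h2' : ringKrullDim A ≤ ringKrullDim (Λ ⧸ C') := ringKrullDim_le_of_isIntegral
    have h3 : ringKrullDim S ≤ ringKrullDim A := le_ringKrullDim_of_isIntegral hinj
    have h4 : ringKrullDim (S0 ⧸ 𝔠) + 1 ≤ ringKrullDim S0 :=
      ringKrullDim_succ_le_of_surjective (Ideal.Quotient.mk 𝔠) Ideal.Quotient.mk_surjective
        (r := c) (mem_nonZeroDivisors_of_ne_zero hc0) (Ideal.Quotient.eq_zero_iff_mem.mpr hc)
    have := Fintype.ofFinite ι
    have := Fintype.ofFinite (V × Fin 3 ⊕ ρ)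
    obtain ⟨eqv⟩ : Nonempty (ι ≃ (V × Fin 3 ⊕ ρ)) :=
      Fintype.card_eq.mp (by simpa [Nat.card_eq_fintype_card] using hcard)
    have h5 : ringKrullDim S = ringKrullDim S0 :=
      ringKrullDim_eq_of_ringEquiv (MvPowerSeries.renameEquiv O eqv).toRingEquiv
    have htop : ringKrullDim S0 ≠ ⊤ := ringKrullDim_ne_top
    have hbot : ringKrullDim S0 ≠ ⊥ := ringKrullDim_ne_bot
    have h6 : ringKrullDim S0 + 1 ≤ ringKrullDim S0 :=
      le_trans (add_le_add (((h5 ▸ h3).trans h2').trans h1) le_rfl) h4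
    obtain ⟨D, hD⟩ := WithBot.ne_bot_iff_exists.mp hbot
    rw [← hD] at h6 htop
    obtain ⟨D', rfl⟩ :=
      ENat.ne_top_iff_exists.mp (show D ≠ ⊤ from fun h => htop (by rw [h]; rfl))
    exact absurd h6 (by norm_cast; omega)
  intro x hx
  let fQ : S0 →+* Λ ⧸ Q := (Ideal.Quotient.mk Q).comp p
  have hfinQ : fQ.Finite := by
    have h := (RingHom.Finite.of_surjective (Ideal.Quotient.factor (relIdeal_le_germIdeal hδ'))
      (Ideal.Quotient.factor_surjective (relIdeal_le_germIdeal hδ'))).comp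
      (finite_param (ρ := ρ) hδ)
    rwa [← RingHom.comp_assoc, Ideal.Quotient.factor_comp_mk] at h
  let _ : Algebra S0 (Λ ⧸ Q) := fQ.toAlgebra
  have : Module.Finite S0 (Λ ⧸ Q) := hfinQ
  have : Q.IsPrime := germIdeal_isPrime hδ'
  have : C'.IsPrime := RingHom.ker_isPrime _
  have : (C'.map (Ideal.Quotient.mk Q)).IsPrime :=
    Ideal.map_isPrime_of_surjective Ideal.Quotient.mk_surjective (by rwa [Ideal.mk_ker])
  have hcomap : (C'.map (Ideal.Quotient.mk Q)).comap (algebraMap S0 (Λ ⧸ Q)) = ⊥ := by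
    rw [RingHom.algebraMap_toAlgebra, ← Ideal.comap_comap,
      Ideal.comap_map_of_surjective _ Ideal.Quotient.mk_surjective, ← RingHom.ker_eq_comap_bot,
      Ideal.mk_ker, sup_eq_left.mpr hQC]
    exact h𝔠
  have hbot : C'.map (Ideal.Quotient.mk Q) = ⊥ := Ideal.eq_bot_of_comap_eq_bot hcomap
  exact Ideal.Quotient.eq_zero_iff_mem.mp
    ((Submodule.mem_bot _).mp (hbot ▸ Ideal.mem_map_of_mem _ hx))

/-- The main support statement. -/
theorem coeff_mem_maximalIdeal (φ : O →+* ball1 K) (hφinj : Function.Injective φ)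
    (hφ : ∀ c ∈ maximalIdeal O, ‖(φ c : K)‖ < 1) (h2 : ‖(2 : K)‖ = 1)
    (hδ0 : ∀ v, δ v ≠ 0) (hδ : ∀ v, δ v ∈ maximalIdeal O)
    (hcard : Nat.card ι = Nat.card (V × Fin 3 ⊕ ρ))
    {M : Type*} [AddCommGroup M] [Nontrivial M] [Module (MvPowerSeries (Coord V ρ) O) M]
    [Module (MvPowerSeries ι O) M]
    [SMulCommClass (MvPowerSeries (Coord V ρ) O) (MvPowerSeries ι O) M]
    (hC : ∀ (c : O) (x : M), (C c : MvPowerSeries (Coord V ρ) O) • x =
      (C c : MvPowerSeries ι O) • x)
    [Module.Finite (MvPowerSeries ι O) M] [Module.Free (MvPowerSeries ι O) M]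
    [Module.Finite (MvPowerSeries (Coord V ρ) O) M]
    (hrel : ∀ r ∈ relIdeal (ρ := ρ) δ, ∀ x : M, r • x = 0)
    {π : O} (hπ : Irreducible π) {f : MvPowerSeries (Coord V ρ) O}
    (hf : ∀ x : M, ∃ y : M, f • x = (C π : MvPowerSeries (Coord V ρ) O) • y)
    {d : Coord V ρ →₀ ℕ} (hd : ∀ v k, d (Sum.inl (v, 0, k)) = 0) :
    coeff d f ∈ maximalIdeal O := by
  classical
  let S := MvPowerSeries ι O
  let Λ := MvPowerSeries (Coord V ρ) O
  have : SMulCommClass S Λ M := SMulCommClass.symm ..
  let act : Λ →+* Module.End S M := Module.toModuleEnd S (S := Λ) M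
  let B : Subalgebra S (Module.End S M) := Algebra.adjoin S (Set.range act)
  have : IsMulCommutative B := Algebra.isMulCommutative_adjoin S (by
    rintro _ ⟨a, rfl⟩ _ ⟨b, rfl⟩
    rw [← map_mul, ← map_mul, mul_comm])
  have : Module.Finite S B :=
    Module.Finite.of_injective (Subalgebra.val B).toLinearMap Subtype.coe_injective
  let actB : Λ →+* B := act.codRestrict B fun a => Algebra.subset_adjoin ⟨a, rfl⟩
  -- integrality over the coordinates
  have hactB : actB.IsIntegral := fun b => by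
    have hb : ∀ (r : Λ) (x : M), (b : Module.End S M) (r • x) = r • (b : Module.End S M) x := by
      obtain ⟨b, hb⟩ := b
      show ∀ (r : Λ) (x : M), b (r • x) = r • b x
      induction hb using Algebra.adjoin_induction with
      | mem b hb => obtain ⟨a, rfl⟩ := hb; exact fun r x => smul_comm a r x
      | algebraMap s => exact fun r x => smul_comm s r x
      | add b c _ _ h1 h2 => exact fun r x => by simp [h1, h2, smul_add]
      | mul b c _ _ h1 h2 => exact fun r x => by simp [h1, h2]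
    let bΛ : Module.End Λ M :=
      { toFun := (b : Module.End S M)
        map_add' := fun x y => map_add _ x y
        map_smul' := hb }
    obtain ⟨P', hP', hP'0⟩ := LinearMap.exists_monic_and_aeval_eq_zero Λ bΛ
    refine ⟨P', hP', Subtype.ext (LinearMap.ext fun x => ?_)⟩
    have hpow : ∀ (i : ℕ) (x : M), ((b : Module.End S M) ^ i) x = (bΛ ^ i) x := by
      intro i
      induction i with
      | zero => exact fun x => rfl
      | succ i ih =>
        intro x
        rw [pow_succ', pow_succ', Module.End.mul_apply, Module.End.mul_apply, ih]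
        rfl
    have h1 := LinearMap.congr_fun hP'0 x
    rw [Polynomial.aeval_eq_sum_range, LinearMap.sum_apply] at h1
    rw [Polynomial.eval₂_eq_sum_range, AddSubmonoidClass.coe_finsetSum, LinearMap.sum_apply]
    refine Eq.trans (Finset.sum_congr rfl fun i _ => ?_) h1
    rw [Subalgebra.coe_mul, SubmonoidClass.coe_pow, Module.End.mul_apply, LinearMap.smul_apply,
      hpow]
    rfl
  have hinjB : Function.Injective (algebraMap S B) := by
    rw [injective_iff_map_eq_zero]
    intro s hs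
    obtain ⟨m, hm⟩ := exists_ne (0 : M)
    exact (smul_eq_zero.mp (LinearMap.congr_fun (congrArg Subtype.val hs) m)).resolve_right hm
  obtain ⟨P, -, hP, hP0⟩ := Ideal.exists_ideal_over_prime_of_isIntegral (⊥ : Ideal S)
    (⊥ : Ideal B)
    (by rw [← RingHom.ker_eq_comap_bot, (RingHom.injective_iff_ker_eq_bot _).mp hinjB])
  let ψ₀ : Λ →+* B ⧸ P := (Ideal.Quotient.mk P).comp actB
  have hinjA : Function.Injective (algebraMap S (B ⧸ P)) := by
    rw [injective_iff_map_eq_zero]
    intro s hs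
    rw [← Ideal.mem_bot, ← hP0, Ideal.mem_comap]
    exact Ideal.Quotient.eq_zero_iff_mem.mp hs
  have hδ' : ∀ v, ‖(φ (δ v) : K)‖ < 1 := fun v => hφ _ (hδ v)
  have hker := ker_le_germIdeal (ρ := ρ) φ hφinj hφ h2 hδ0 hδ hδ' hcard hinjA ψ₀
    (RingHom.IsIntegral.trans _ _ hactB
      (RingHom.isIntegral_of_surjective _ Ideal.Quotient.mk_surjective))
    (fun c => congrArg (Ideal.Quotient.mk P) (Subtype.ext (LinearMap.ext fun x => hC c x)))
    (fun r hr => by
      show Ideal.Quotient.mk P (actB r) = 0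
      rw [show actB r = 0 from Subtype.ext (LinearMap.ext fun x => hrel r hr x), map_zero])
  have hle : Module.annihilator Λ M ≤ germIdeal (ρ := ρ) hδ' := fun r hr => hker (by
    show Ideal.Quotient.mk P (actB r) = 0
    rw [show actB r = 0 from
      Subtype.ext (LinearMap.ext fun x => Module.mem_annihilator.mp hr x), map_zero])
  -- `f` is `π` times an endomorphism
  have hπM : Function.Injective fun y : M => (C π : Λ) • y := fun y z h => by
    have hS : (C π : S) ≠ 0 := fun h0 => hπ.ne_zero (by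
      simpa using congrArg constantCoeff h0)
    refine sub_eq_zero.mp ((smul_eq_zero.mp ?_).resolve_left hS)
    rw [smul_sub, sub_eq_zero, ← hC, ← hC]
    exact h
  choose g hg using hf
  let h' : Module.End Λ M :=
    { toFun := g
      map_add' := fun x y => hπM (by
        show (C π : Λ) • g (x + y) = (C π : Λ) • (g x + g y)
        rw [smul_add, ← hg, ← hg, ← hg, smul_add])
      map_smul' := fun r x => hπM (by
        show (C π : Λ) • g (r • x) = (C π : Λ) • (r • g x)
        rw [← hg, smul_comm, smul_comm (C π : Λ), ← hg]) }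
  obtain ⟨P', hP', hP'0⟩ := LinearMap.exists_monic_and_aeval_eq_zero Λ h'
  let Ann := Module.annihilator Λ M
  set F := (P'.scaleRoots (C π)).eval f with hF
  have hFA : F ∈ Ann := by
    refine Module.mem_annihilator.mpr fun m => ?_
    have hmul : algebraMap Λ (Module.End Λ M) (C π) * h' = algebraMap Λ (Module.End Λ M) f :=
      LinearMap.ext fun x => by simp [h', ← hg]
    have h0 := Polynomial.scaleRoots_aeval_eq_zero (r := (C π : Λ)) hP'0
    rw [hmul, Polynomial.aeval_algebraMap_apply] at h0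
    simpa using LinearMap.congr_fun h0 m
  -- reduce
  let θ : Λ →+* MvPowerSeries (V × Fin 3 ⊕ ρ) (ResidueField O) :=
    (MvPowerSeries.map (residue O)).comp (killCompl freeEmb).toRingHom
  have hθπ : θ (C π) = 0 := by
    show MvPowerSeries.map (residue O) (killCompl freeEmb (C π)) = 0
    rw [killCompl_C, MvPowerSeries.map_C,
      (residue_eq_zero_iff π).mpr ((IsLocalRing.mem_maximalIdeal π).mpr hπ.not_isUnit), map_zero]
  have hθF : θ F = θ f ^ P'.natDegree := by
    rw [hF, ← Polynomial.eval₂_id, Polynomial.hom_eval₂, RingHom.comp_id,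
      ← Polynomial.natDegree_scaleRoots P' (C π), Polynomial.eval₂_eq_sum_range,
      Finset.sum_range_succ, Polynomial.natDegree_scaleRoots,
      Finset.sum_eq_zero fun i hi => ?_, zero_add]
    · rw [Polynomial.coeff_scaleRoots, hP'.coeff_natDegree, Nat.sub_self, pow_zero, one_mul,
        map_one, one_mul]
    · rw [Polynomial.coeff_scaleRoots, map_mul, map_pow, hθπ,
        zero_pow (Nat.sub_ne_zero_of_lt (Finset.mem_range.mp hi)), mul_zero, zero_mul]
  have hsmall : ∀ x ∈ germIdeal (ρ := ρ) hδ', θ x = 0 := fun x hx => by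
    refine MvPowerSeries.ext fun e => ?_
    simp only [θ, RingHom.comp_apply, AlgHom.toRingHom_eq_coe, RingHom.coe_coe,
      MvPowerSeries.coeff_map, map_zero]
    rw [residue_eq_zero_iff]
    by_contra hu
    obtain ⟨u, hu'⟩ := IsLocalRing.notMem_maximalIdeal.mp hu
    have hbound : ∀ c : O, ‖(φ c : K)‖ < 1 → ‖(φ c : K)‖ ≤ ‖(φ π : K)‖ := fun c hc => by
      by_cases hcu : IsUnit c
      · obtain ⟨u, rfl⟩ := hcu
        have h1 : ‖(φ u : K)‖ * ‖(φ ↑u⁻¹ : K)‖ = 1 := by
          rw [← norm_mul, ← Subring.coe_mul, ← map_mul, Units.mul_inv, map_one, OneMemClass.coe_one,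
            norm_one]
        nlinarith [norm_nonneg (φ u : K), norm_coe_le (φ (↑u⁻¹ : O))]
      · have hc' : c ∈ Ideal.span {π} := hπ.maximalIdeal_eq ▸ (IsLocalRing.mem_maximalIdeal c).mpr hcu
        obtain ⟨k, rfl⟩ := Ideal.mem_span_singleton.mp hc'
        rw [map_mul, Subring.coe_mul, norm_mul]
        exact mul_le_of_le_one_right (norm_nonneg _) (norm_coe_le _)
    have h0 := norm_coeff_lt_one_of_mem_germIdeal hδ' h2
      (fun v => fun h => hδ0 v (hφinj (by rw [map_zero]; exact Subtype.ext h)))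
      (hφ π ((IsLocalRing.mem_maximalIdeal π).mpr hπ.not_isUnit)) hbound hx
      (d := Finsupp.embDomain freeEmb e) (fun v k => Finsupp.embDomain_of_notMem_range _ _ _ (by
        rintro ⟨(⟨w, l⟩ | s), h⟩ <;> simp at h))
    rw [coeff_killCompl] at hu'
    rw [← hu'] at h0
    have h1 : ‖(φ u : K)‖ * ‖(φ ↑u⁻¹ : K)‖ = 1 := by
      rw [← norm_mul, ← Subring.coe_mul, ← map_mul, Units.mul_inv, map_one, OneMemClass.coe_one,
        norm_one]
    nlinarith [norm_nonneg (φ u : K), norm_coe_le (φ (↑u⁻¹ : O))]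
  have hpow : θ f ^ P'.natDegree = 0 := hθF ▸ hsmall F (hle hFA)
  have hθf : θ f = 0 := by
    rcases Nat.eq_zero_or_pos P'.natDegree with h0 | h0
    · rw [h0, pow_zero] at hpow; exact absurd hpow one_ne_zero
    · exact (pow_eq_zero_iff h0.ne').mp hpow
  obtain ⟨e, rfl⟩ := exists_embDomain_eq hd
  have := congrArg (coeff e) hθf
  simp only [θ, RingHom.comp_apply, AlgHom.toRingHom_eq_coe, RingHom.coe_coe,
    MvPowerSeries.coeff_map, map_zero] at this
  exact (residue_eq_zero_iff _).mp this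

end Fermat.Agent.RT.Algebra
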